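import Mathlib
import Fermat.Prelude.Def_ModularForm_HeckeOperator
import Fermat.Prelude.Def_FLTPrelim_Modularity
import Fermat.Prelude.Thm_CongruenceSubgroup_one_mem_strictPeriods_Gamma0

/-!
# P-S58 block L1 (helper2), part 1: the two degeneracy maps on cusp forms

For `g : CuspForm (Gamma0 M) k` and `r ≠ 0`:

* `s58Restrict M r g : CuspForm (Gamma0 (M * r)) k`, the same function;
* `s58Dilate M r g : CuspForm (Gamma0 (M * r)) k`, the function `z ↦ g (r z)`;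
* `qCoeff_s58Restrict`, `qCoeff_s58Dilate` : their `q`-coefficients.
-/

set_option autoImplicit false
set_option linter.style.haveILetI false

open UpperHalfPlane ModularForm CongruenceSubgroup Filter
open scoped MatrixGroups ModularForm Pointwise Topology

namespace Fermat.Agent.H2

local notation "𝕢" => Function.Periodic.qParam

open Matrix.SpecialLinearGroup in
theorem s58_mapGL_apply (γ : SL(2, ℤ)) (i j : Fin 2) :
    (mapGL ℝ γ : Matrix (Fin 2) (Fin 2) ℝ) i j = ((γ i j : ℤ) : ℝ) := by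
  rw [mapGL_coe_matrix]
  rfl

/-- `Γ₀(M r) ≤ Γ₀(M)`. -/
theorem s58_gamma0_mul_le (M r : ℕ) :
    ((Gamma0 (M * r) : Subgroup SL(2, ℤ)) : Subgroup (GL (Fin 2) ℝ)) ≤
      ((Gamma0 M : Subgroup SL(2, ℤ)) : Subgroup (GL (Fin 2) ℝ)) := by
  rintro _ ⟨γ, hγ, rfl⟩
  refine ⟨γ, ?_, rfl⟩
  rw [SetLike.mem_coe, Gamma0_mem] at hγ ⊢
  have h1 : ((M * r : ℕ) : ℤ) ∣ γ 1 0 := (ZMod.intCast_zmod_eq_zero_iff_dvd _ _).mp hγ
  have h2 : ((M : ℕ) : ℤ) ∣ γ 1 0 := by
    refine dvd_trans ?_ h1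
    push_cast
    exact dvd_mul_right _ _
  exact (ZMod.intCast_zmod_eq_zero_iff_dvd _ _).mpr h2

open Matrix.SpecialLinearGroup in
/-- For `γ ∈ Γ₀(M r)`, the conjugate `α γ α⁻¹` (`α = diag(r,1)`) lies in `Γ₀(M)`. -/
theorem s58_gamma0_mul_le_conj (M r : ℕ) [NeZero r] :
    ((Gamma0 (M * r) : Subgroup SL(2, ℤ)) : Subgroup (GL (Fin 2) ℝ)) ≤
      ConjAct.toConjAct (heckeDiagMatrix r)⁻¹ •
        ((Gamma0 M : Subgroup SL(2, ℤ)) : Subgroup (GL (Fin 2) ℝ)) := by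
  rintro _ ⟨γ, hγ, rfl⟩
  rw [Subgroup.mem_pointwise_smul_iff_inv_smul_mem, ← ConjAct.toConjAct_inv, inv_inv,
    ConjAct.toConjAct_smul]
  rw [SetLike.mem_coe, Gamma0_mem] at hγ
  obtain ⟨c', hc'⟩ : ((M * r : ℕ) : ℤ) ∣ γ 1 0 :=
    (ZMod.intCast_zmod_eq_zero_iff_dvd _ _).mp hγ
  have hdet : γ 0 0 * γ 1 1 - γ 0 1 * γ 1 0 = 1 := by
    have := γ.det_coe
    rwa [Matrix.det_fin_two] at this
  let δ : SL(2, ℤ) := ⟨!![γ 0 0, r * γ 0 1; M * c', γ 1 1], by
    rw [Matrix.det_fin_two_of]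
    rw [hc'] at hdet
    push_cast at hdet
    linear_combination hdet⟩
  have hδ : δ ∈ Gamma0 M := by
    rw [Gamma0_mem]
    refine (ZMod.intCast_zmod_eq_zero_iff_dvd _ _).mpr ?_
    show (M : ℤ) ∣ (M : ℤ) * c'
    exact dvd_mul_right _ _
  refine ⟨δ, hδ, ?_⟩
  rw [eq_mul_inv_iff_mul_eq]
  have hr : r ≠ 0 := NeZero.ne r
  apply Matrix.GeneralLinearGroup.ext
  intro i j
  rw [Matrix.GeneralLinearGroup.coe_mul, Matrix.GeneralLinearGroup.coe_mul,
    val_heckeDiagMatrix hr, Matrix.mul_apply, Matrix.mul_apply, Fin.sum_univ_two, Fin.sum_univ_two]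
  simp only [s58_mapGL_apply]
  fin_cases i <;> fin_cases j <;>
    simp [δ, hc'] <;> ring

variable {k : ℤ}

/-- The same function, at level `M r`. -/
noncomputable def s58Restrict (M r : ℕ) (g : CuspForm (Gamma0 M) k) :
    CuspForm (Gamma0 (M * r)) k where
  toFun := ⇑g
  slash_action_eq' γ hγ := g.slash_action_eq' γ (s58_gamma0_mul_le M r hγ)
  holo' := g.holo'
  zero_at_cusps' hc := g.zero_at_cusps' (hc.mono (s58_gamma0_mul_le M r))

theorem coe_s58Restrict (M r : ℕ) (g : CuspForm (Gamma0 M) k) :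
    (⇑(s58Restrict M r g) : ℍ → ℂ) = ⇑g := rfl

theorem qCoeff_s58Restrict (M r : ℕ) (g : CuspForm (Gamma0 M) k) (n : ℕ) :
    ModularFormClass.qCoeff (s58Restrict M r g) n = ModularFormClass.qCoeff g n := rfl

/-- `g ∣[k] diag(r,1)` as a cusp form on `Γ₀(M r)`. -/
noncomputable def s58LevelRaise (M r : ℕ) [NeZero r] (g : CuspForm (Gamma0 M) k) :
    CuspForm (Gamma0 (M * r)) k where
  toFun := ⇑g ∣[k] heckeDiagMatrix r
  slash_action_eq' γ hγ :=
    (CuspForm.translate g (heckeDiagMatrix r)).slash_action_eq' γ (s58_gamma0_mul_le_conj M r hγ)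
  holo' := (CuspForm.translate g (heckeDiagMatrix r)).holo'
  zero_at_cusps' hc :=
    (CuspForm.translate g (heckeDiagMatrix r)).zero_at_cusps' (hc.mono (s58_gamma0_mul_le_conj M r))

theorem coe_s58LevelRaise (M r : ℕ) [NeZero r] (g : CuspForm (Gamma0 M) k) :
    (⇑(s58LevelRaise M r g) : ℍ → ℂ) = ⇑g ∣[k] heckeDiagMatrix r := rfl

theorem s58LevelRaise_apply (M r : ℕ) [NeZero r] (g : CuspForm (Gamma0 M) k) (z : ℍ) :
    s58LevelRaise M r g z = (r : ℂ) ^ (k - 1) * g (heckeDiagMatrix r • z) :=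
  slash_heckeDiagMatrix_apply k (NeZero.ne r) g z

/-- The cusp form `z ↦ g (r z)` on `Γ₀(M r)`. -/
noncomputable def s58Dilate (M r : ℕ) [NeZero r] (g : CuspForm (Gamma0 M) k) :
    CuspForm (Gamma0 (M * r)) k :=
  ((((r : ℂ) ^ (k - 1))⁻¹ : ℂ)) • s58LevelRaise M r g

theorem s58Dilate_apply (M r : ℕ) [NeZero r] (g : CuspForm (Gamma0 M) k) (z : ℍ) :
    s58Dilate M r g z = g (heckeDiagMatrix r • z) := by
  have hr : (r : ℂ) ≠ 0 := by exact_mod_cast NeZero.ne r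
  show ((((r : ℂ) ^ (k - 1))⁻¹ : ℂ)) • (s58LevelRaise M r g z) = _
  rw [s58LevelRaise_apply, smul_eq_mul, ← mul_assoc, inv_mul_cancel₀ (zpow_ne_zero _ hr), one_mul]

theorem s58_qParam_heckeDiagMatrix_smul (r : ℕ) [NeZero r] (τ : ℍ) :
    𝕢 1 ((heckeDiagMatrix r • τ : ℍ) : ℂ) = 𝕢 1 (τ : ℂ) ^ r := by
  rw [coe_heckeDiagMatrix_smul (NeZero.ne r)]
  simp only [Function.Periodic.qParam, ← Complex.exp_nat_mul]
  congr 1
  push_cast
  ring

/-- The `q`-expansion of `z ↦ g (r z)`. -/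
theorem qCoeff_s58Dilate (M r : ℕ) [NeZero r] (g : CuspForm (Gamma0 M) k) (n : ℕ) :
    ModularFormClass.qCoeff (s58Dilate M r g) n =
      if r ∣ n then ModularFormClass.qCoeff g (n / r) else 0 := by
  show (qExpansion 1 (s58Dilate M r g)).coeff n =
      if r ∣ n then (qExpansion 1 g).coeff (n / r) else 0
  set c : ℕ → ℂ := fun n => if r ∣ n then (qExpansion 1 g).coeff (n / r) else 0 with hc
  have h1 : (1 : ℝ) ∈
      ((Gamma0 (M * r) : Subgroup SL(2, ℤ)) : Subgroup (GL (Fin 2) ℝ)).strictPeriods :=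
    CongruenceSubgroup.one_mem_strictPeriods_Gamma0 (M * r)
  have h1' : (1 : ℝ) ∈
      ((Gamma0 M : Subgroup SL(2, ℤ)) : Subgroup (GL (Fin 2) ℝ)).strictPeriods :=
    CongruenceSubgroup.one_mem_strictPeriods_Gamma0 M
  refine (ModularFormClass.qExpansion_coeff_unique one_pos h1 (f := s58Dilate M r g) (c := c)
    ?_ n).symm
  intro τ
  rw [s58Dilate_apply]
  haveI : Fact (IsCusp OnePoint.infty
      ((Gamma0 M : Subgroup SL(2, ℤ)) : Subgroup (GL (Fin 2) ℝ))) :=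
    ⟨Subgroup.isCusp_of_mem_strictPeriods one_pos h1'⟩
  have hg := ModularForm.hasSum_qExpansion (f := g) one_pos h1' (heckeDiagMatrix r • τ)
  rw [s58_qParam_heckeDiagMatrix_smul] at hg
  have hr : 0 < r := Nat.pos_of_ne_zero (NeZero.ne r)
  have hinj : Function.Injective (fun m : ℕ => r * m) := fun a b h =>
    Nat.eq_of_mul_eq_mul_left hr h
  rw [← hinj.hasSum_iff]
  · convert hg using 2 with m
    simp only [Function.comp_apply, hc, dvd_mul_right, if_true, Nat.mul_div_cancel_left _ hr,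
      smul_eq_mul, pow_mul]
  · intro x hx
    have : ¬ r ∣ x := fun ⟨m, hm⟩ => hx ⟨m, hm.symm⟩
    simp [hc, this]

end Fermat.Agent.H2
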