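import Fermat.Agent.H2.S58.Hasse3Core

/-!
# P-S58 row 1095 (HASSE3), block (3d), helper2: assembly lemmas

* `h3_natCard_point` : point count of `y² = x³ + a₂ x² + a₆` over `𝔽₃` as a decidable count;
* `h3_assembly` : the Hasse relation from the generic statement `V P = a P - φ P = (w, u)`,
  `3 P = (w³, u³)`.
-/

set_option autoImplicit false
set_option linter.style.haveILetI false
set_option linter.unusedSectionVars false

open WeierstrassCurve WeierstrassCurve.Affine Polynomial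

namespace Fermat.Agent.H2

open Fermat.Agent.H40

/-- The curve `y² = x³ + a₂ x² + a₆` over `𝔽₃`. -/
def h3Curve (A2 A6 : ZMod 3) : WeierstrassCurve (ZMod 3) := ⟨0, A2, 0, 0, A6⟩

theorem h3Curve_equation_iff (A2 A6 x y : ZMod 3) :
    (h3Curve A2 A6).toAffine.Equation x y ↔ y ^ 2 = x ^ 3 + A2 * x ^ 2 + A6 := by
  rw [WeierstrassCurve.Affine.equation_iff]
  simp [h3Curve]

theorem h3_natCard_point (A2 A6 : ZMod 3) (hΔ : (h3Curve A2 A6).Δ ≠ 0) :
    Nat.card (h3Curve A2 A6).toAffine.Point =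
      Fintype.card {p : ZMod 3 × ZMod 3 // p.2 ^ 2 = p.1 ^ 3 + A2 * p.1 ^ 2 + A6} + 1 := by
  classical
  rw [Nat.card_congr (WeierstrassCurve.Affine.nonsingularPointEquiv (h3Curve A2 A6).toAffine)]
  have e : {xy : ZMod 3 × ZMod 3 // (h3Curve A2 A6).toAffine.Nonsingular xy.1 xy.2} ≃
      {p : ZMod 3 × ZMod 3 // p.2 ^ 2 = p.1 ^ 3 + A2 * p.1 ^ 2 + A6} :=
    Equiv.subtypeEquivRight fun p => by
      rw [← WeierstrassCurve.Affine.equation_iff_nonsingular_of_Δ_ne_zero
        (W := (h3Curve A2 A6).toAffine) hΔ, h3Curve_equation_iff]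
  show Nat.card (Option _) = _
  rw [Finite.card_option, Nat.card_congr e, Nat.card_eq_fintype_card]

theorem h3_trace (A2 A6 : ZMod 3) (hΔ : (h3Curve A2 A6).Δ ≠ 0) (n : ℕ)
    (hn : Fintype.card {p : ZMod 3 × ZMod 3 // p.2 ^ 2 = p.1 ^ 3 + A2 * p.1 ^ 2 + A6} = n) :
    (h3Curve A2 A6).traceOfFrobenius = 3 - (n : ℤ) := by
  rw [WeierstrassCurve.traceOfFrobenius, WeierstrassCurve.card, h3_natCard_point A2 A6 hΔ, hn,
    Nat.card_eq_fintype_card, ZMod.card]
  push_cast
  ring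

section asm

variable (E : WeierstrassCurve (ZMod 3))

/-- Assembly: the Hasse relation from the generic Verschiebung identities. -/
theorem h3_assembly (hΔ : E.Δ ≠ 0) (a : ℤ) (htr : E.traceOfFrobenius = a)
    (hgen : ∀ (K : Type) [Field K] [DecidableEq K] [Algebra (ZMod 3) K] [IsAlgClosed K],
      ∃ X : Finset K, ∀ (x y : K) (h : (E⁄K).toAffine.Nonsingular x y)
        (h' : (E⁄K).toAffine.Nonsingular (x ^ 3) (y ^ 3)), x ∉ X →
        ∃ w u : K, (∃ hA : (E⁄K).toAffine.Nonsingular w u,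
            a • Point.some x y h - Point.some (x ^ 3) (y ^ 3) h' = Point.some w u hA) ∧
          ∃ hB : (E⁄K).toAffine.Nonsingular (w ^ 3) (u ^ 3),
            (3 : ℤ) • Point.some x y h = Point.some (w ^ 3) (u ^ 3) hB) :
    HasseRelation E := by
  refine Fermat.Agent.H51.S58.hasseRelation_of_generic E hΔ ?_
  intro K _ _ _ _
  obtain ⟨X, hX⟩ := hgen K
  refine ⟨X, fun x y hxy hx => ?_⟩
  have hcard : Fintype.card (ZMod 3) = 3 := ZMod.card 3
  obtain ⟨h0, e0⟩ := frobPt_some E K hxy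
  obtain ⟨h', e'⟩ := h3_some_congr h0 (x' := x ^ 3) (y' := y ^ 3) (by rw [hcard]) (by rw [hcard])
  obtain ⟨w, u, ⟨hA, eA⟩, hT⟩ := hX x y hxy h' hx
  have key : hasseOp E K (Point.some x y hxy) = 0 := by
    refine h3_hasseOp_eq_zero E K hxy ⟨hA, ?_⟩ hT
    rw [htr, e0, e', eA]
  rw [key, smul_zero]

end asm

section roots

variable {K : Type} [Field K] [DecidableEq K]

theorem h3_eval_ne_zero_of_not_mem {g : K[X]} (hg : g ≠ 0) {x : K}
    (hx : x ∉ g.roots.toFinset) : g.eval x ≠ 0 := by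
  intro h
  apply hx
  rw [Multiset.mem_toFinset, Polynomial.mem_roots hg]
  exact h

end roots

end Fermat.Agent.H2
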