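import Fermat.Agent.H2.S58.Hasse3Core

/-!
# P-S58 row 1095 (HASSE3), block (3d), helper2: the curve `y² = x³ + 2 x² + 1` over `𝔽₃`

Generated identities: every polynomial identity is closed by `linear_combination` from
`hy : y² = f(x)`, `h3 : 3 = 0`, `hd : D d = 1`, `ht : y t = 1`.
-/

set_option autoImplicit false
set_option linter.style.haveILetI false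
set_option linter.unusedVariables false
set_option maxHeartbeats 4000000

open WeierstrassCurve WeierstrassCurve.Affine

namespace Fermat.Agent.H2

/-- The curve `y² = x³ + 2 x² + 1` in characteristic `3` (trace `-1`): `V P = -1 P - φ P` and
`3 P = φ (V P)` at a generic point. -/
theorem h3c21_generic {K : Type} [Field K] [DecidableEq K] (h3 : (3 : K) = 0) {W : Affine K}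
    (ha₁ : W.a₁ = 0) (ha₂ : W.a₂ = 2) (ha₃ : W.a₃ = 0) (ha₄ : W.a₄ = 0) (ha₆ : W.a₆ = 1)
    {x y : K} (h : W.Nonsingular x y) (h' : W.Nonsingular (x ^ 3) (y ^ 3))
    (hx0 : x ≠ 0) (hx1 : x - 1 ≠ 0) (hx2 : x + 1 ≠ 0) (hy0 : y ≠ 0) :
    ∃ w u : K, (∃ hA : W.Nonsingular w u,
        (-1 : ℤ) • Point.some x y h - Point.some (x ^ 3) (y ^ 3) h' = Point.some w u hA) ∧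
      ∃ hB : W.Nonsingular (w ^ 3) (u ^ 3), (3 : ℤ) • Point.some x y h = Point.some (w ^ 3) (u ^ 3) hB := by
  have hy : y ^ 2 = x ^ 3 + 2 * x ^ 2 + 1 := by
    have := (W.equation_iff x y).1 h.1
    rw [ha₁, ha₂, ha₃, ha₄, ha₆] at this
    linear_combination this
  have h2 : (2 : K) ≠ 0 := by
    intro h2
    have : (1 : K) = 0 := by linear_combination h3 - h2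
    exact one_ne_zero this
  obtain ⟨d, hd⟩ : ∃ d : K, (x + 1) * d = 1 := ⟨(x + 1)⁻¹, mul_inv_cancel₀ hx2⟩
  obtain ⟨t, ht⟩ : ∃ t : K, y * t = 1 := ⟨y⁻¹, mul_inv_cancel₀ hy0⟩
  -- doubling
  obtain ⟨h2P, e2P⟩ := h3_tangent ha₁ ha₃ (X := (x^4 + x + 1) * t ^ 2) (Y := (-x^6 - x^5 + x^3 - x^2 + x - 1) * t ^ 3) h (mul_ne_zero h2 hy0)
    (by rw [ha₂, ha₄]; linear_combination (exp := 1) (-9*x^4*y*t - 9*x^4 - 24*x^3*y*t - 24*x^3 - 16*x^2*y*t - 16*x^2 + 8*x*y^3*t + 8*x*y^2 + 8*y^3*t + 8*y^2) * ht + (-3*x^4*t^2 - 8*x*y^2*t^2 - 12*x*t^2 - 8*y^2*t^2 - 12*t^2) * hy + (-x^7*t^2 - 2*x^6*t^2 - 5*x^4*t^2 - 12*x^3*t^2 - 8*x^2*t^2 - 4*x*t^2 - 4*t^2) * h3)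
    (by rw [ha₂, ha₄]; linear_combination (exp := 1) (-3*x^6*t^2 - 4*x^5*t^2 + 3*x^3*y^2*t^2 + 3*x^3*y*t - 3*x^3*t^2 + 3*x^3 + 4*x^2*y^2*t^2 + 4*x^2*y*t - 7*x^2*t^2 + 4*x^2 - 4*x*t^2 - 2*y^4*t^2 - 2*y^3*t - 2*y^2) * ht + (-x^3*y*t^3 + 2*y^3*t^3 + 2*y*t^3) * hy + (2*x^3*y*t^3 + 3*x^2*y*t^3 + 2*x*y*t^3) * h3)
  have hX2x : (x^4 + x + 1) * t ^ 2 ≠ x := by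
    intro e
    have key : ((x^4 + x + 1) * t ^ 2 - x) * y ^ 2 = 1 * (x + 1) ^ 3 := by
      linear_combination (exp := 1) (x^3*y*t + x^3 + 3*x^2*y*t + 3*x^2 + x*y^3*t + x*y^2 + 3*x*y*t + 3*x + y*t + 1) * ht + (-3*x^3*t^2 - 3*x^2*t^2 - x*y^2*t^2 - 3*x*t^2) * hy + (-x^6*t^2 - 3*x^5*t^2 - 3*x^4*t^2 - 3*x^3*t^2 - x^2*t^2 - x*t^2) * h3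
    rw [e, sub_self, zero_mul] at key
    exact pow_ne_zero 3 hx2 (by linear_combination (-1) * key)
  -- tripling
  obtain ⟨h3P, e3P⟩ := h3_chord ha₁ ha₃ (X := ((x^3 + x + 1) * d ^ 2) ^ 3) (Y := ((-x^3 + x + 1) * d ^ 3 * y) ^ 3) h2P h hX2x
    (by rw [ha₂]; linear_combination (exp := 1) (x^17*y*t^5*d^6 + x^17*t^4*d^6 + 3*x^15*y*t^5*d^6 + 3*x^15*t^4*d^6 - 2*x^14*y^3*t^5*d^6 - 2*x^14*y^2*t^4*d^6 + 5*x^14*y*t^5*d^6 - 2*x^14*y*t^3*d^6 + 5*x^14*t^4*d^6 - 2*x^14*t^2*d^6 + 5*x^13*y*t^5*d^6 + 5*x^13*t^4*d^6 - 6*x^12*y^3*t^5*d^6 - 6*x^12*y^2*t^4*d^6 + 12*x^12*y*t^5*d^6 - 6*x^12*y*t^3*d^6 + 12*x^12*t^4*d^6 - 6*x^12*t^2*d^6 + x^11*y^5*t^5*d^6 + x^11*y^4*t^4*d^6 - 8*x^11*y^3*t^5*d^6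 + x^11*y^3*t^3*d^6 - 8*x^11*y^2*t^4*d^6 + x^11*y^2*t^2*d^6 + 17*x^11*y*t^5*d^6 - 8*x^11*y*t^3*d^6 + x^11*y*t*d^6 + 17*x^11*t^4*d^6 - 8*x^11*t^2*d^6 + x^11*d^6 - 8*x^10*y^3*t^5*d^6 - 8*x^10*y^2*t^4*d^6 + 17*x^10*y*t^5*d^6 - 8*x^10*y*t^3*d^6 + 17*x^10*t^4*d^6 - 8*x^10*t^2*d^6 + 3*x^9*y^5*t^5*d^6 + 3*x^9*y^4*t^4*d^6 - 18*x^9*y^3*t^5*d^6 + 3*x^9*y^3*t^3*d^6 - 18*x^9*y^2*t^4*d^6 + 3*x^9*y^2*t^2*d^6 + 25*x^9*y*t^5*d^6 - x^9*y*t^5 - 18*x^9*y*t^3*d^6 + 3*x^9*y*t*d^6 + 25*x^9*t^4*d^6 - x^9*t^4 - 18*x^9*t^2*d^6 + 3*x^9*d^6 + 3*x^8*y^5*t^5*d^6 + 3*x^8*y^4*t^4*d^6 - 20*x^8*y^3*t^5*d^6 + 3*x^8*y^3*t^3*d^6 - 20*x^8*y^2*t^4*d^6 + 3*x^8*y^2*t^2*d^6 + 30*x^8*y*t^5*d^6 + 2*x^8*y*t^5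 - 20*x^8*y*t^3*d^6 + 3*x^8*y*t*d^6 + 30*x^8*t^4*d^6 + 2*x^8*t^4 - 20*x^8*t^2*d^6 + 3*x^8*d^6 + 3*x^7*y^5*t^5*d^6 + 3*x^7*y^4*t^4*d^6 - 18*x^7*y^3*t^5*d^6 + 3*x^7*y^3*t^3*d^6 - 18*x^7*y^2*t^4*d^6 + 3*x^7*y^2*t^2*d^6 + 26*x^7*y*t^5*d^6 - 18*x^7*y*t^3*d^6 + 3*x^7*y*t*d^6 + 26*x^7*t^4*d^6 - 18*x^7*t^2*d^6 + 3*x^7*d^6 + 6*x^6*y^5*t^5*d^6 + 6*x^6*y^4*t^4*d^6 - 24*x^6*y^3*t^5*d^6 - 3*x^6*y^3*t^5 + 6*x^6*y^3*t^3*d^6 - 24*x^6*y^2*t^4*d^6 - 3*x^6*y^2*t^4 + 6*x^6*y^2*t^2*d^6 + 27*x^6*y*t^5*d^6 - 2*x^6*y*t^5 - 24*x^6*y*t^3*d^6 - 3*x^6*y*t^3 + 6*x^6*y*t*d^6 + 27*x^6*t^4*d^6 - 2*x^6*t^4 - 24*x^6*t^2*d^6 - x^6*t^2 + 6*x^6*d^6 + 4*x^5*y^5*t^5*d^6 + 4*x^5*y^4*t^4*d^6 - 22*x^5*y^3*t^5*d^6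 - 6*x^5*y^3*t^5 + 4*x^5*y^3*t^3*d^6 - 22*x^5*y^2*t^4*d^6 - 6*x^5*y^2*t^4 + 4*x^5*y^2*t^2*d^6 + 27*x^5*y*t^5*d^6 + 2*x^5*y*t^5 - 22*x^5*y*t^3*d^6 - 6*x^5*y*t^3 + 4*x^5*y*t*d^6 + 27*x^5*t^4*d^6 + 2*x^5*t^4 - 22*x^5*t^2*d^6 - 4*x^5*t^2 + 4*x^5*d^6 + 3*x^4*y^5*t^5*d^6 + 3*x^4*y^4*t^4*d^6 - 14*x^4*y^3*t^5*d^6 + 3*x^4*y^3*t^3*d^6 - 14*x^4*y^2*t^4*d^6 + 3*x^4*y^2*t^2*d^6 + 19*x^4*y*t^5*d^6 + 4*x^4*y*t^5 - 14*x^4*y*t^3*d^6 + 3*x^4*y*t*d^6 + 19*x^4*t^4*d^6 + 4*x^4*t^4 - 14*x^4*t^2*d^6 + 3*x^4*d^6 + 3*x^3*y^5*t^5*d^6 + x^3*y^5*t^5 + 3*x^3*y^4*t^4*d^6 + x^3*y^4*t^4 - 12*x^3*y^3*t^5*d^6 + x^3*y^3*t^5 + 3*x^3*y^3*t^3*d^6 + x^3*y^3*t^3 - 12*x^3*y^2*t^4*d^6 + x^3*y^2*t^4 + 3*x^3*y^2*t^2*d^6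 + x^3*y^2*t^2 + 13*x^3*y*t^5*d^6 - x^3*y*t^5 - 12*x^3*y*t^3*d^6 + x^3*y*t^3 + 3*x^3*y*t*d^6 + x^3*y*t + 13*x^3*t^4*d^6 - x^3*t^4 - 12*x^3*t^2*d^6 - x^3*t^2 + 3*x^3*d^6 + x^3 + x^2*y^5*t^5*d^6 + 2*x^2*y^5*t^5 + x^2*y^4*t^4*d^6 + 2*x^2*y^4*t^4 - 8*x^2*y^3*t^5*d^6 - 7*x^2*y^3*t^5 + x^2*y^3*t^3*d^6 + 2*x^2*y^3*t^3 - 8*x^2*y^2*t^4*d^6 - 7*x^2*y^2*t^4 + x^2*y^2*t^2*d^6 + 2*x^2*y^2*t^2 + 10*x^2*y*t^5*d^6 - 8*x^2*y*t^3*d^6 - 7*x^2*y*t^3 + x^2*y*t*d^6 + 2*x^2*y*t + 10*x^2*t^4*d^6 - 8*x^2*t^2*d^6 - 5*x^2*t^2 + x^2*d^6 + 2*x^2 - 2*x*y^3*t^5*d^6 - 2*x*y^3*t^5 - 2*x*y^2*t^4*d^6 - 2*x*y^2*t^4 + 5*x*y*t^5*d^6 + 3*x*y*t^5 - 2*x*y*t^3*d^6 - 2*x*y*t^3 + 5*x*t^4*d^6 + 3*x*t^4 -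 2*x*t^2*d^6 - 4*x*t^2 - y^7*t^5 - y^6*t^4 - y^5*t^3 - y^4*t^2 - 2*y^3*t^5 - y^3*t - 2*y^2*t^4 - y^2 + y*t^5*d^6 + 2*y*t^5 - 2*y*t^3 + t^4*d^6 + 2*t^4) * ht + (-2*x^16*t^6*d^5 - 11*x^15*t^6*d^5 - 2*x^15*t^6*d^4 - x^14*y^2*t^6*d^5 - 20*x^14*t^6*d^5 - 9*x^14*t^6*d^4 - 2*x^14*t^6*d^3 - 3*x^13*y^2*t^6*d^5 - x^13*y^2*t^6*d^4 - 2*x^13*t^6*d^5 - 11*x^13*t^6*d^4 - 7*x^13*t^6*d^3 - 2*x^13*t^6*d^2 - 2*x^12*y^2*t^6*d^4 - x^12*y^2*t^6*d^3 + 45*x^12*t^6*d^5 + 9*x^12*t^6*d^4 - 4*x^12*t^6*d^3 - 5*x^12*t^6*d^2 - 2*x^12*t^6*d - 3*x^11*y^4*t^6*d^5 + 8*x^11*y^2*t^6*d^5 + 2*x^11*y^2*t^6*d^4 - x^11*y^2*t^6*d^3 - x^11*y^2*t^6*d^2 + 75*x^11*t^6*d^5 + 36*x^11*t^6*d^4 + 13*x^11*t^6*d^3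 + x^11*t^6*d^2 - 3*x^11*t^6*d - 2*x^11*t^6 - 21*x^10*y^4*t^6*d^5 - 3*x^10*y^4*t^6*d^4 + 7*x^10*y^2*t^6*d^5 + 6*x^10*y^2*t^6*d^4 + 3*x^10*y^2*t^6*d^3 - x^10*y^2*t^6*d + 70*x^10*t^6*d^5 + 39*x^10*t^6*d^4 + 23*x^10*t^6*d^3 + 12*x^10*t^6*d^2 + 4*x^10*t^6*d - x^10*t^6 - 60*x^9*y^4*t^6*d^5 - 18*x^9*y^4*t^6*d^4 - 3*x^9*y^4*t^6*d^3 + 3*x^9*y^2*t^6*d^5 + x^9*y^2*t^6*d^4 + 3*x^9*y^2*t^6*d^3 + 3*x^9*y^2*t^6*d^2 + x^9*y^2*t^6*d - x^9*y^2*t^6 + 70*x^9*t^6*d^5 + 31*x^9*t^6*d^4 + 16*x^9*t^6*d^3 + 11*x^9*t^6*d^2 + 8*x^9*t^6*d + 5*x^9*t^6 + x^8*y^6*t^6*d^5 - 89*x^8*y^4*t^6*d^5 - 42*x^8*y^4*t^6*d^4 - 15*x^8*y^4*t^6*d^3 - 3*x^8*y^4*t^6*d^2 + 21*x^8*y^2*t^6*d^5 + 2*x^8*y^2*t^6*d^4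 - 2*x^8*y^2*t^6*d^3 + 2*x^8*y^2*t^6*d + 2*x^8*y^2*t^6 + 88*x^8*t^6*d^5 + 39*x^8*t^6*d^4 + 15*x^8*t^6*d^3 + 5*x^8*t^6*d^2 + 3*x^8*t^6*d + 3*x^8*t^6 + 7*x^7*y^6*t^6*d^5 + x^7*y^6*t^6*d^4 - 77*x^7*y^4*t^6*d^5 - 47*x^7*y^4*t^6*d^4 - 27*x^7*y^4*t^6*d^3 - 12*x^7*y^4*t^6*d^2 - 3*x^7*y^4*t^6*d + 45*x^7*y^2*t^6*d^5 + 19*x^7*y^2*t^6*d^4 + 4*x^7*y^2*t^6*d^3 - 2*x^7*y^2*t^6*d^2 - 2*x^7*y^2*t^6*d + 95*x^7*t^6*d^5 + 49*x^7*t^6*d^4 + 24*x^7*t^6*d^3 + 10*x^7*t^6*d^2 + 2*x^7*t^6*d + 20*x^6*y^6*t^6*d^5 + 6*x^6*y^6*t^6*d^4 + x^6*y^6*t^6*d^3 - 60*x^6*y^4*t^6*d^5 - 30*x^6*y^4*t^6*d^4 - 20*x^6*y^4*t^6*d^3 - 15*x^6*y^4*t^6*d^2 - 9*x^6*y^4*t^6*d - 3*x^6*y^4*t^6 + 41*x^6*y^2*t^6*d^5 +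 26*x^6*y^2*t^6*d^4 + 15*x^6*y^2*t^6*d^3 + 6*x^6*y^2*t^6*d^2 - 2*x^6*y^2*t^6 + 87*x^6*t^6*d^5 + 46*x^6*t^6*d^4 + 25*x^6*t^6*d^3 + 14*x^6*t^6*d^2 + 8*x^6*t^6*d + 2*x^6*t^6 - x^5*y^8*t^6*d^5 + 30*x^5*y^6*t^6*d^5 + 14*x^5*y^6*t^6*d^4 + 5*x^5*y^6*t^6*d^3 + x^5*y^6*t^6*d^2 - 78*x^5*y^4*t^6*d^5 - 30*x^5*y^4*t^6*d^4 - 10*x^5*y^4*t^6*d^3 - 5*x^5*y^4*t^6*d^2 - 6*x^5*y^4*t^6*d - 6*x^5*y^4*t^6 + 29*x^5*y^2*t^6*d^5 + 15*x^5*y^2*t^6*d^4 + 11*x^5*y^2*t^6*d^3 + 9*x^5*y^2*t^6*d^2 + 6*x^5*y^2*t^6*d + 2*x^5*y^2*t^6 + 81*x^5*t^6*d^5 + 41*x^5*t^6*d^4 + 21*x^5*t^6*d^3 + 11*x^5*t^6*d^2 + 6*x^5*t^6*d + 6*x^5*t^6 - 5*x^4*y^8*t^6*d^5 - x^4*y^8*t^6*d^4 + 25*x^4*y^6*t^6*d^5 + 16*x^4*y^6*t^6*d^4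 + 9*x^4*y^6*t^6*d^3 + 4*x^4*y^6*t^6*d^2 + x^4*y^6*t^6*d - 95*x^4*y^4*t^6*d^5 - 48*x^4*y^4*t^6*d^4 - 20*x^4*y^4*t^6*d^3 - 5*x^4*y^4*t^6*d^2 + x^4*y^4*t^6*d + 39*x^4*y^2*t^6*d^5 + 14*x^4*y^2*t^6*d^4 + 4*x^4*y^2*t^6*d^3 + 2*x^4*y^2*t^6*d^2 + 3*x^4*y^2*t^6*d + 4*x^4*y^2*t^6 + 75*x^4*t^6*d^5 + 40*x^4*t^6*d^4 + 20*x^4*t^6*d^3 + 10*x^4*t^6*d^2 + 5*x^4*t^6*d - 10*x^3*y^8*t^6*d^5 - 4*x^3*y^8*t^6*d^4 - x^3*y^8*t^6*d^3 + 11*x^3*y^6*t^6*d^5 + 9*x^3*y^6*t^6*d^4 + 7*x^3*y^6*t^6*d^3 + 5*x^3*y^6*t^6*d^2 + 3*x^3*y^6*t^6*d + x^3*y^6*t^6 - 74*x^3*y^4*t^6*d^5 - 47*x^3*y^4*t^6*d^4 - 28*x^3*y^4*t^6*d^3 - 15*x^3*y^4*t^6*d^2 - 6*x^3*y^4*t^6*d + x^3*y^4*t^6 + 49*x^3*y^2*t^6*d^5 + 25*x^3*y^2*t^6*d^4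 + 10*x^3*y^2*t^6*d^3 + 2*x^3*y^2*t^6*d^2 - x^3*y^2*t^6*d - x^3*y^2*t^6 + 55*x^3*t^6*d^5 + 35*x^3*t^6*d^4 + 20*x^3*t^6*d^3 + 10*x^3*t^6*d^2 + 5*x^3*t^6*d + 5*x^3*t^6 - 10*x^2*y^8*t^6*d^5 - 6*x^2*y^8*t^6*d^4 - 3*x^2*y^8*t^6*d^3 - x^2*y^8*t^6*d^2 + 2*x^2*y^6*t^6*d^5 + 2*x^2*y^6*t^6*d^4 + 2*x^2*y^6*t^6*d^3 + 2*x^2*y^6*t^6*d^2 + 2*x^2*y^6*t^6*d + 2*x^2*y^6*t^6 - 37*x^2*y^4*t^6*d^5 - 27*x^2*y^4*t^6*d^4 - 19*x^2*y^4*t^6*d^3 - 13*x^2*y^4*t^6*d^2 - 9*x^2*y^4*t^6*d - 7*x^2*y^4*t^6 + 35*x^2*y^2*t^6*d^5 + 24*x^2*y^2*t^6*d^4 + 15*x^2*y^2*t^6*d^3 + 8*x^2*y^2*t^6*d^2 + 3*x^2*y^2*t^6*d + 25*x^2*t^6*d^5 + 20*x^2*t^6*d^4 + 15*x^2*t^6*d^3 + 10*x^2*t^6*d^2 + 5*x^2*t^6*d - 5*x*y^8*t^6*d^5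 - 4*x*y^8*t^6*d^4 - 3*x*y^8*t^6*d^3 - 2*x*y^8*t^6*d^2 - x*y^8*t^6*d - 12*x*y^4*t^6*d^5 - 10*x*y^4*t^6*d^4 - 8*x*y^4*t^6*d^3 - 6*x*y^4*t^6*d^2 - 4*x*y^4*t^6*d - 2*x*y^4*t^6 + 13*x*y^2*t^6*d^5 + 11*x*y^2*t^6*d^4 + 9*x*y^2*t^6*d^3 + 7*x*y^2*t^6*d^2 + 5*x*y^2*t^6*d + 3*x*y^2*t^6 + 5*x*t^6*d^5 + 5*x*t^6*d^4 + 5*x*t^6*d^3 + 5*x*t^6*d^2 + 5*x*t^6*d + 5*x*t^6 - y^8*t^6*d^5 - y^8*t^6*d^4 - y^8*t^6*d^3 - y^8*t^6*d^2 - y^8*t^6*d - y^8*t^6 - 2*y^4*t^6*d^5 - 2*y^4*t^6*d^4 - 2*y^4*t^6*d^3 - 2*y^4*t^6*d^2 - 2*y^4*t^6*d - 2*y^4*t^6 + 2*y^2*t^6*d^5 + 2*y^2*t^6*d^4 + 2*y^2*t^6*d^3 + 2*y^2*t^6*d^2 + 2*y^2*t^6*d + 2*y^2*t^6) * hd + (x^14*y^2*t^6*d^6 + 34*x^14*t^6*d^6 - 2*x^13*y^2*t^6*d^6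 + 120*x^13*t^6*d^6 + 6*x^12*y^2*t^6*d^6 + 299*x^12*t^6*d^6 - x^11*y^4*t^6*d^6 + 22*x^11*y^2*t^6*d^6 + 471*x^11*t^6*d^6 + 80*x^10*y^2*t^6*d^6 + 571*x^10*t^6*d^6 - 3*x^9*y^4*t^6*d^6 + 153*x^9*y^2*t^6*d^6 + 638*x^9*t^6*d^6 - 3*x^8*y^4*t^6*d^6 + 175*x^8*y^2*t^6*d^6 + 720*x^8*t^6*d^6 - 3*x^7*y^4*t^6*d^6 + 168*x^7*y^2*t^6*d^6 + 775*x^7*t^6*d^6 + x^6*y^6*t^6*d^6 - 5*x^6*y^4*t^6*d^6 + 198*x^6*y^2*t^6*d^6 + 712*x^6*t^6*d^6 + 6*x^5*y^6*t^6*d^6 + 2*x^5*y^4*t^6*d^6 + 245*x^5*y^2*t^6*d^6 + 529*x^5*t^6*d^6 + 15*x^4*y^6*t^6*d^6 + 12*x^4*y^4*t^6*d^6 + 229*x^4*y^2*t^6*d^6 + 290*x^4*t^6*d^6 + 20*x^3*y^6*t^6*d^6 + 17*x^3*y^4*t^6*d^6 + 153*x^3*y^2*t^6*d^6 + 103*x^3*t^6*d^6 + 15*x^2*y^6*t^6*d^6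 + 14*x^2*y^4*t^6*d^6 + 73*x^2*y^2*t^6*d^6 + 21*x^2*t^6*d^6 + 6*x*y^6*t^6*d^6 + 6*x*y^4*t^6*d^6 + 22*x*y^2*t^6*d^6 + 2*x*t^6*d^6 + y^6*t^6*d^6 + y^4*t^6*d^6 + 3*y^2*t^6*d^6) * hy + (12*x^17*t^6*d^6 + 67*x^16*t^6*d^6 + 190*x^15*t^6*d^6 + 375*x^14*t^6*d^6 + 530*x^13*t^6*d^6 + 653*x^12*t^6*d^6 + 774*x^11*t^6*d^6 + 882*x^10*t^6*d^6 + 914*x^9*t^6*d^6 + 830*x^8*t^6*d^6 + 647*x^7*t^6*d^6 + 409*x^6*t^6*d^6 + 200*x^5*t^6*d^6 + 68*x^4*t^6*d^6 + 9*x^3*t^6*d^6 - 3*x^2*t^6*d^6 - x*t^6*d^6) * h3)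
    (by linear_combination (exp := 1) (x^13*y^3*t^2*d^9 - 3*x^11*y^3*t^2*d^9 - x^10*y^5*t^2*d^9 - x^10*y^4*t*d^9 - 2*x^10*y^3*t^2*d^9 - x^10*y^3*d^9 + 4*x^9*y^3*t^2*d^9 + x^9*y^3*t^2*d^6 + x^9*y^2*t*d^6 + x^9*y*d^6 + 3*x^8*y^5*t^2*d^9 + 3*x^8*y^4*t*d^9 + 3*x^8*y^3*t^2*d^9 + 3*x^8*y^3*d^9 + 3*x^7*y^5*t^2*d^9 + 3*x^7*y^4*t*d^9 - 4*x^7*y^3*t^2*d^9 + 3*x^7*y^3*t^2*d^6 + 3*x^7*y^3*d^9 + 3*x^7*y^2*t*d^6 + 3*x^7*y*d^6 - 3*x^6*y^5*t^2*d^9 - 3*x^6*y^4*t*d^9 - 3*x^6*y^3*t^2*d^9 + 3*x^6*y^3*t^2*d^6 - 3*x^6*y^3*d^9 + 3*x^6*y^2*t*d^6 + 3*x^6*y*d^6 - 6*x^5*y^5*t^2*d^9 - 6*x^5*y^4*t*d^9 + 6*x^5*y^3*t^2*d^9 + 3*x^5*y^3*t^2*d^6 - 6*x^5*y^3*d^9 + 3*x^5*y^2*t*d^6 + 3*x^5*y*d^6 -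 2*x^4*y^5*t^2*d^9 - 2*x^4*y^4*t*d^9 + 7*x^4*y^3*t^2*d^9 + 6*x^4*y^3*t^2*d^6 - 2*x^4*y^3*d^9 + 6*x^4*y^2*t*d^6 - x^4*y*t^2 + 6*x^4*y*d^6 + 3*x^3*y^5*t^2*d^9 + 3*x^3*y^4*t*d^9 - x^3*y^3*t^2*d^9 + 4*x^3*y^3*t^2*d^6 + 3*x^3*y^3*d^9 + 4*x^3*y^2*t*d^6 + 4*x^3*y*d^6 + 3*x^2*y^5*t^2*d^9 + 3*x^2*y^4*t*d^9 - 6*x^2*y^3*t^2*d^9 + 3*x^2*y^3*t^2*d^6 + 3*x^2*y^3*d^9 + 3*x^2*y^2*t*d^6 + 3*x^2*y*d^6 + x*y^5*t^2*d^9 + x*y^4*t*d^9 - 4*x*y^3*t^2*d^9 + 3*x*y^3*t^2*d^6 + x*y^3*d^9 + 3*x*y^2*t*d^6 - x*y*t^2 + 3*x*y*d^6 - y^3*t^2*d^9 + y^3*t^2*d^6 + y^2*t*d^6 - y*t^2 + y*d^6) * ht + (x^17*t^3*d^8 + 3*x^16*t^3*d^8 + x^16*t^3*d^7 + 5*x^15*t^3*d^8 + 2*x^15*t^3*d^7 + x^15*t^3*d^6 + 3*x^14*t^3*d^8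 + 3*x^14*t^3*d^7 + x^14*t^3*d^6 - 16*x^13*t^3*d^8 + 2*x^13*t^3*d^6 - x^12*y^2*t^3*d^8 - 59*x^12*t^3*d^8 - 16*x^12*t^3*d^7 - 2*x^12*t^3*d^6 - x^12*t^3*d^5 + x^11*y^4*t^3*d^8 - 8*x^11*y^2*t^3*d^8 - x^11*y^2*t^3*d^7 - 91*x^11*t^3*d^8 - 43*x^11*t^3*d^7 - 14*x^11*t^3*d^6 - 6*x^11*t^3*d^5 - x^11*t^3*d^4 + 2*x^10*y^4*t^3*d^8 + x^10*y^4*t^3*d^7 - 28*x^10*y^2*t^3*d^8 - 7*x^10*y^2*t^3*d^7 - x^10*y^2*t^3*d^6 - 74*x^10*t^3*d^8 - 48*x^10*t^3*d^7 - 29*x^10*t^3*d^6 - 15*x^10*t^3*d^5 - 5*x^10*t^3*d^4 - x^10*t^3*d^3 + 4*x^9*y^4*t^3*d^8 + x^9*y^4*t^3*d^7 + x^9*y^4*t^3*d^6 - 57*x^9*y^2*t^3*d^8 - 21*x^9*y^2*t^3*d^7 - 6*x^9*y^2*t^3*d^6 - x^9*y^2*t^3*d^5 - 27*x^9*t^3*d^8 - 26*x^9*t^3*d^7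 - 19*x^9*t^3*d^6 - 19*x^9*t^3*d^5 - 10*x^9*t^3*d^4 - 4*x^9*t^3*d^3 - x^9*t^3*d^2 + 9*x^8*y^4*t^3*d^8 + 3*x^8*y^4*t^3*d^7 - 79*x^8*y^2*t^3*d^8 - 36*x^8*y^2*t^3*d^7 - 15*x^8*y^2*t^3*d^6 - 5*x^8*y^2*t^3*d^5 - x^8*y^2*t^3*d^4 + 14*x^8*t^3*d^8 - x^8*t^3*d^7 - 7*x^8*t^3*d^6 - 11*x^8*t^3*d^5 - 9*x^8*t^3*d^4 - 6*x^8*t^3*d^3 - 3*x^8*t^3*d^2 - x^8*t^3*d + 12*x^7*y^4*t^3*d^8 + 6*x^7*y^4*t^3*d^7 + 3*x^7*y^4*t^3*d^6 - 92*x^7*y^2*t^3*d^8 - 43*x^7*y^2*t^3*d^7 - 21*x^7*y^2*t^3*d^6 - 10*x^7*y^2*t^3*d^5 - 4*x^7*y^2*t^3*d^4 - x^7*y^2*t^3*d^3 + 19*x^7*t^3*d^8 + 15*x^7*t^3*d^7 + 6*x^7*t^3*d^6 - 2*x^7*t^3*d^4 - 3*x^7*t^3*d^3 - 3*x^7*t^3*d^2 - 2*x^7*t^3*d - x^7*t^3 + 15*x^6*y^4*t^3*d^8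 + 6*x^6*y^4*t^3*d^7 + 3*x^6*y^4*t^3*d^6 - 112*x^6*y^2*t^3*d^8 - 49*x^6*y^2*t^3*d^7 - 22*x^6*y^2*t^3*d^6 - 11*x^6*y^2*t^3*d^5 - 6*x^6*y^2*t^3*d^4 - 3*x^6*y^2*t^3*d^3 - x^6*y^2*t^3*d^2 - 9*x^6*t^3*d^8 + 4*x^6*t^3*d^7 + 9*x^6*t^3*d^6 + 3*x^6*t^3*d^5 + 2*x^6*t^3*d^4 + x^6*t^3*d^3 - x^6*t^3*d - x^6*t^3 + 19*x^5*y^4*t^3*d^8 + 9*x^5*y^4*t^3*d^7 + 3*x^5*y^4*t^3*d^6 - 134*x^5*y^2*t^3*d^8 - 63*x^5*y^2*t^3*d^7 - 27*x^5*y^2*t^3*d^6 - 11*x^5*y^2*t^3*d^5 - 5*x^5*y^2*t^3*d^4 - 3*x^5*y^2*t^3*d^3 - 2*x^5*y^2*t^3*d^2 - x^5*y^2*t^3*d - 28*x^5*t^3*d^8 - 13*x^5*t^3*d^7 - 5*x^5*t^3*d^6 + x^5*t^3*d^4 + x^5*t^3*d^3 + x^5*t^3*d^2 + x^5*t^3*d + 17*x^4*y^4*t^3*d^8 + 10*x^4*y^4*t^3*d^7 +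 6*x^4*y^4*t^3*d^6 - 127*x^4*y^2*t^3*d^8 - 71*x^4*y^2*t^3*d^7 - 36*x^4*y^2*t^3*d^6 - 16*x^4*y^2*t^3*d^5 - 6*x^4*y^2*t^3*d^4 - 2*x^4*y^2*t^3*d^3 - x^4*y^2*t^3*d^2 - x^4*y^2*t^3*d - x^4*y^2*t^3 - 26*x^4*t^3*d^8 - 15*x^4*t^3*d^7 - 8*x^4*t^3*d^6 - 4*x^4*t^3*d^5 - x^4*t^3*d^4 + x^4*t^3 + 13*x^3*y^4*t^3*d^8 + 7*x^3*y^4*t^3*d^7 + 4*x^3*y^4*t^3*d^6 - 84*x^3*y^2*t^3*d^8 - 56*x^3*y^2*t^3*d^7 - 35*x^3*y^2*t^3*d^6 - 20*x^3*y^2*t^3*d^5 - 10*x^3*y^2*t^3*d^4 - 4*x^3*y^2*t^3*d^3 - x^3*y^2*t^3*d^2 - 14*x^3*t^3*d^8 - 11*x^3*t^3*d^7 - 7*x^3*t^3*d^6 - 6*x^3*t^3*d^5 - 3*x^3*t^3*d^4 - x^3*t^3*d^3 - x^3*t^3 + 10*x^2*y^4*t^3*d^8 + 6*x^2*y^4*t^3*d^7 + 3*x^2*y^4*t^3*d^6 - 36*x^2*y^2*t^3*d^8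 - 28*x^2*y^2*t^3*d^7 - 21*x^2*y^2*t^3*d^6 - 15*x^2*y^2*t^3*d^5 - 10*x^2*y^2*t^3*d^4 - 6*x^2*y^2*t^3*d^3 - 3*x^2*y^2*t^3*d^2 - x^2*y^2*t^3*d - x^2*t^3*d^8 - 3*x^2*t^3*d^7 - 4*x^2*t^3*d^6 - 4*x^2*t^3*d^5 - 3*x^2*t^3*d^4 - 2*x^2*t^3*d^3 - x^2*t^3*d^2 + x^2*t^3 + 5*x*y^4*t^3*d^8 + 4*x*y^4*t^3*d^7 + 3*x*y^4*t^3*d^6 - 9*x*y^2*t^3*d^8 - 8*x*y^2*t^3*d^7 - 7*x*y^2*t^3*d^6 - 6*x*y^2*t^3*d^5 - 5*x*y^2*t^3*d^4 - 4*x*y^2*t^3*d^3 - 3*x*y^2*t^3*d^2 - 2*x*y^2*t^3*d - x*y^2*t^3 + 3*x*t^3*d^8 + 2*x*t^3*d^7 + x*t^3*d^6 - x*t^3*d^5 - x*t^3*d^4 - x*t^3*d^3 - x*t^3*d^2 - x*t^3*d - x*t^3 + y^4*t^3*d^8 + y^4*t^3*d^7 + y^4*t^3*d^6 - y^2*t^3*d^8 - y^2*t^3*d^7 - y^2*t^3*d^6 - y^2*t^3*d^5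 - y^2*t^3*d^4 - y^2*t^3*d^3 - y^2*t^3*d^2 - y^2*t^3*d - y^2*t^3 + t^3*d^8 + t^3*d^7 + t^3*d^6) * hd + (x^15*t^3*d^9 - x^14*t^3*d^9 - 17*x^13*t^3*d^9 + x^12*y^2*t^3*d^9 - 34*x^12*t^3*d^9 - 3*x^11*y^2*t^3*d^9 - 22*x^11*t^3*d^9 + x^10*y^4*t^3*d^9 - 12*x^10*y^2*t^3*d^9 + 31*x^10*t^3*d^9 - 20*x^9*y^2*t^3*d^9 + 65*x^9*t^3*d^9 - 3*x^8*y^4*t^3*d^9 - 15*x^8*y^2*t^3*d^9 + 57*x^8*t^3*d^9 - 3*x^7*y^4*t^3*d^9 - 12*x^7*y^2*t^3*d^9 + 60*x^7*t^3*d^9 + 3*x^6*y^4*t^3*d^9 - 27*x^6*y^2*t^3*d^9 + 108*x^6*t^3*d^9 + 6*x^5*y^4*t^3*d^9 - 45*x^5*y^2*t^3*d^9 + 150*x^5*t^3*d^9 + 2*x^4*y^4*t^3*d^9 - 42*x^4*y^2*t^3*d^9 + 142*x^4*t^3*d^9 - 3*x^3*y^4*t^3*d^9 - 27*x^3*y^2*t^3*d^9 + 87*x^3*t^3*d^9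 - 3*x^2*y^4*t^3*d^9 - 12*x^2*y^2*t^3*d^9 + 33*x^2*t^3*d^9 - x*y^4*t^3*d^9 - 3*x*y^2*t^3*d^9 + 7*x*t^3*d^9 + t^3*d^9) * hy + (-x^17*t^3*d^9 - 9*x^16*t^3*d^9 - 25*x^15*t^3*d^9 - 26*x^14*t^3*d^9 + 15*x^13*t^3*d^9 + 81*x^12*t^3*d^9 + 110*x^11*t^3*d^9 + 102*x^10*t^3*d^9 + 102*x^9*t^3*d^9 + 130*x^8*t^3*d^9 + 164*x^7*t^3*d^9 + 172*x^6*t^3*d^9 + 137*x^5*t^3*d^9 + 85*x^4*t^3*d^9 + 39*x^3*t^3*d^9 + 11*x^2*t^3*d^9 + x*t^3*d^9) * h3)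
  have e3 : (3 : ℤ) • Point.some x y h = Point.some x y h + Point.some x y h + Point.some x y h := by
    rw [show (3 : ℤ) = 1 + 1 + 1 by norm_num, add_zsmul, add_zsmul, one_zsmul]
  -- the Verschiebung
  obtain ⟨hnφ, enφ⟩ := h3_neg_some ha₁ ha₃ h'
  have hxx : x ≠ x ^ 3 := by
    intro e
    have : x * (x - 1) * (x + 1) = 0 := by linear_combination -e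
    exact mul_ne_zero (mul_ne_zero hx0 hx1) hx2 this
  obtain ⟨hnP, enP⟩ := h3_neg_some ha₁ ha₃ h
  obtain ⟨hA, eA⟩ := h3_chord ha₁ ha₃ (X := (x^3 + x + 1) * d ^ 2) (Y := (-x^3 + x + 1) * d ^ 3 * y) hnP hnφ hxx
    (by rw [ha₂]; linear_combination (exp := 1) (x^10*d + x^9*d + x^9 - x^8*d + x^7*d - x^7 + x^6*d + 2*x^6 - 5*x^5*d - x^5 - 3*x^4*d - 4*x^4 + 3*x^3*d + x^3 + 2*x^2*d + 2*x^2 - x*y^6*d + 2*x*y^4*d - x*y^2*d - y^6*d - y^6 + 2*y^4*d + 2*y^4 - y^2*d - y^2) * hd + (x^8*d^2 + 6*x^7*d^2 + 13*x^6*d^2 + x^5*y^2*d^2 + 12*x^5*d^2 + 4*x^4*y^2*d^2 + 4*x^4*d^2 + 5*x^3*y^2*d^2 + x^2*y^4*d^2 + x^2*y^2*d^2 + 2*x*y^4*d^2 - 2*x*y^2*d^2 + y^4*d^2 - y^2*d^2) * hy + (2*x^10*d^2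 + 8*x^9*d^2 + 13*x^8*d^2 + 11*x^7*d^2 + 8*x^6*d^2 + 7*x^5*d^2 + 2*x^4*d^2 - 2*x^3*d^2 - x^2*d^2) * h3)
    (by linear_combination (exp := 1) (-x^5*y*d^2 - 2*x^4*y*d^2 - x^4*y*d - x^3*y*d - x^3*y + 2*x^2*y^3*d^2 + x^2*y^3*d + x*y^3*d + x*y^3 + x*y*d^2 - y^3*d^2 + y*d^2) * hd + (-2*x^3*y*d^3 - 2*x^2*y*d^3 + x*y*d^3 + y*d^3) * hy + (-x^5*y*d^3 - x^4*y*d^3) * h3)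
  refine ⟨(x^3 + x + 1) * d ^ 2, (-x^3 + x + 1) * d ^ 3 * y, ⟨hA, ?_⟩, ⟨h3P, ?_⟩⟩
  · rw [neg_one_zsmul, sub_eq_add_neg, enP, enφ, eA]
  · rw [e3, e2P, e3P]

end Fermat.Agent.H2
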