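import Fermat.Agent.H51.S58.HasseGeneric

/-!
# P-S58 row 1095 (HASSE3), block (3d), helper2: group-law steps in cleared form

For a Weierstrass curve `W` over a field with `a₁ = a₃ = 0`:
* `h3_chord` : `(x₁, y₁) + (x₂, y₂) = (X, Y)` from the two cleared identities (`x₁ ≠ x₂`);
* `h3_tangent` : `2 (x, y) = (X, Y)` from the two cleared identities (`2 y ≠ 0`);
* `h3_hasseOp_eq_zero` : the Hasse operator vanishes at `P` as soon as `V P := a P - φ P = (w, u)`
  and `3 P = (w ^ 3, u ^ 3)`.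
-/

set_option autoImplicit false
set_option linter.style.haveILetI false
set_option linter.unusedSectionVars false

open WeierstrassCurve WeierstrassCurve.Affine

namespace Fermat.Agent.H2

section steps

variable {K : Type*} [Field K] [DecidableEq K] {W : Affine K}

theorem h3_some_congr {x y x' y' : K} (h : W.Nonsingular x y) (hx : x = x') (hy : y = y') :
    ∃ h' : W.Nonsingular x' y', Point.some x y h = Point.some x' y' h' := by
  subst hx
  subst hy
  exact ⟨h, rfl⟩

/-- Chord step in cleared form. -/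
theorem h3_chord (ha₁ : W.a₁ = 0) (ha₃ : W.a₃ = 0) {x₁ y₁ x₂ y₂ X Y : K}
    (h₁ : W.Nonsingular x₁ y₁) (h₂ : W.Nonsingular x₂ y₂) (hx : x₁ ≠ x₂)
    (hX : (y₁ - y₂) ^ 2 = (X + W.a₂ + x₁ + x₂) * (x₁ - x₂) ^ 2)
    (hY : (y₁ - y₂) * (X - x₁) = -(Y + y₁) * (x₁ - x₂)) :
    ∃ h : W.Nonsingular X Y, Point.some x₁ y₁ h₁ + Point.some x₂ y₂ h₂ = Point.some X Y h := by
  have hne : x₁ - x₂ ≠ 0 := sub_ne_zero.mpr hx
  have hXe : W.addX x₁ x₂ (W.slope x₁ x₂ y₁ y₂) = X := by
    rw [slope_of_X_ne hx, addX, ha₁, div_pow, hX]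
    field_simp
    ring
  have hYe : W.addY x₁ x₂ y₁ (W.slope x₁ x₂ y₁ y₂) = Y := by
    rw [addY, negY, negAddY, hXe, slope_of_X_ne hx, ha₁, ha₃, div_mul_eq_mul_div, hY]
    field_simp
    ring
  rw [Point.add_of_X_ne hx]
  exact h3_some_congr _ hXe hYe

/-- Tangent step in cleared form. -/
theorem h3_tangent (ha₁ : W.a₁ = 0) (ha₃ : W.a₃ = 0) {x y X Y : K}
    (h : W.Nonsingular x y) (hy : 2 * y ≠ 0)
    (hX : (3 * x ^ 2 + 2 * W.a₂ * x + W.a₄) ^ 2 = (X + W.a₂ + x + x) * (2 * y) ^ 2)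
    (hY : (3 * x ^ 2 + 2 * W.a₂ * x + W.a₄) * (X - x) = -(Y + y) * (2 * y)) :
    ∃ h' : W.Nonsingular X Y, Point.some x y h + Point.some x y h = Point.some X Y h' := by
  have hy0 : y ≠ 0 := right_ne_zero_of_mul hy
  have h20 : (2 : K) ≠ 0 := left_ne_zero_of_mul hy
  have hneg : W.negY x y = -y := by rw [negY, ha₁, ha₃]; ring
  have hyne : y ≠ W.negY x y := by
    rw [hneg]
    intro h0
    apply hy
    linear_combination h0
  have hsl : W.slope x x y y = (3 * x ^ 2 + 2 * W.a₂ * x + W.a₄) / (2 * y) := by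
    rw [slope_of_Y_ne rfl hyne, hneg, ha₁]
    congr 1
    · ring
    · ring
  have hXe : W.addX x x (W.slope x x y y) = X := by
    rw [hsl, addX, ha₁, div_pow, hX]
    field_simp
    ring
  have hYe : W.addY x x y (W.slope x x y y) = Y := by
    rw [addY, negY, negAddY, hXe, hsl, ha₁, ha₃, div_mul_eq_mul_div, hY]
    field_simp
    ring
  rw [Point.add_self_of_Y_ne hyne]
  exact h3_some_congr _ hXe hYe

theorem h3_neg_some (ha₁ : W.a₁ = 0) (ha₃ : W.a₃ = 0) {x y : K} (h : W.Nonsingular x y) :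
    ∃ h' : W.Nonsingular x (-y), -Point.some x y h = Point.some x (-y) h' := by
  rw [Point.neg_some]
  exact h3_some_congr _ rfl (by rw [negY, ha₁, ha₃]; ring)

end steps

end Fermat.Agent.H2

namespace Fermat.Agent.H2

section wrapper

open Fermat.Agent.H40

variable (E : WeierstrassCurve (ZMod 3)) (K : Type) [Field K] [DecidableEq K]
  [Algebra (ZMod 3) K]

/-- The Hasse operator vanishes at `P` as soon as `V P := a P - φ P = (w, u)` and
`3 P = (w ^ 3, u ^ 3)`. -/
theorem h3_hasseOp_eq_zero {x y w u : K} (h : (E⁄K).toAffine.Nonsingular x y)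
    (hV : ∃ hA : (E⁄K).toAffine.Nonsingular w u,
      E.traceOfFrobenius • Point.some x y h - frobPt E K (Point.some x y h) = Point.some w u hA)
    (hT : ∃ hB : (E⁄K).toAffine.Nonsingular (w ^ 3) (u ^ 3),
      (3 : ℤ) • Point.some x y h = Point.some (w ^ 3) (u ^ 3) hB) :
    hasseOp E K (Point.some x y h) = 0 := by
  obtain ⟨hA, eV⟩ := hV
  obtain ⟨hB, eT⟩ := hT
  have hcard : Fintype.card (ZMod 3) = 3 := ZMod.card 3
  have eφ : frobPt E K (Point.some w u hA) = Point.some (w ^ 3) (u ^ 3) hB := by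
    obtain ⟨h', e⟩ := frobPt_some E K hA
    rw [e]
    obtain ⟨h'', e'⟩ := h3_some_congr h' (x' := w ^ 3) (y' := u ^ 3) (by rw [hcard]) (by rw [hcard])
    rw [e']
  have e1 : frobPt E K (E.traceOfFrobenius • Point.some x y h - frobPt E K (Point.some x y h))
      = (3 : ℤ) • Point.some x y h := by
    rw [eV, eφ, eT]
  rw [map_sub, map_zsmul] at e1
  rw [hasseOp_apply, hcard]
  have : ((3 : ℕ) : ℤ) = 3 := rfl
  rw [this, ← e1]
  abel

end wrapper

end Fermat.Agent.H2
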