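import Fermat.Agent.H2.S58.Hasse3Asm
import Fermat.Agent.H2.S58.Hasse3C12
import Fermat.Agent.H2.S58.Hasse3C21
import Fermat.Agent.H2.S58.Hasse3C11
import Fermat.Agent.H2.S58.Hasse3C22

/-!
# P-S58 row 1095 (HASSE3), block (3d), helper2: the four ordinary curves over `𝔽₃`

`hasseRelation_h3Curve A2 A6` for `A2, A6 ∈ {1, 2}` :
`Fermat.Agent.H40.HasseRelation (⟨0, A2, 0, 0, A6⟩ : WeierstrassCurve (ZMod 3))`.
-/

set_option autoImplicit false
set_option linter.style.haveILetI false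
set_option linter.unusedSectionVars false
set_option maxHeartbeats 1000000

open WeierstrassCurve WeierstrassCurve.Affine Polynomial

namespace Fermat.Agent.H2

open Fermat.Agent.H40

section common

variable {K : Type} [Field K] [DecidableEq K] [Algebra (ZMod 3) K]

theorem h3_three_eq_zero : (3 : K) = 0 := by
  have h : ((3 : ZMod 3) : ZMod 3) = 0 := by decide
  have := congrArg (algebraMap (ZMod 3) K) h
  rw [map_zero] at this
  rw [← this]
  exact (map_ofNat (algebraMap (ZMod 3) K) 3).symm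

/-- the cubic `X³ + a X² + b`. -/
noncomputable def h3F (a b : K) : K[X] := X ^ 3 + C a * X ^ 2 + C b

theorem h3F_ne_zero (a b : K) : h3F a b ≠ 0 := by
  have : (h3F a b).Monic := by
    unfold h3F
    monicity!
  exact this.ne_zero

theorem h3F_eval (a b x : K) : (h3F a b).eval x = x ^ 3 + a * x ^ 2 + b := by
  simp [h3F]

/-- the exceptional set of family I. -/
noncomputable def h3X (a b : K) : Finset K := {0, 1, -1} ∪ (h3F a b).roots.toFinset

theorem h3X_spec {a b x : K} (hx : x ∉ h3X a b) :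
    x ≠ 0 ∧ x - 1 ≠ 0 ∧ x + 1 ≠ 0 ∧ x ^ 3 + a * x ^ 2 + b ≠ 0 := by
  unfold h3X at hx
  rw [Finset.mem_union, not_or] at hx
  obtain ⟨h1, h2⟩ := hx
  simp only [Finset.mem_insert, Finset.mem_singleton, not_or] at h1
  refine ⟨h1.1, sub_ne_zero.mpr h1.2.1, ?_, ?_⟩
  · intro h
    exact h1.2.2 (by linear_combination h)
  · rw [← h3F_eval]
    exact h3_eval_ne_zero_of_not_mem (h3F_ne_zero a b) h2

end common

/-! ## The four curves -/

theorem hasseRelation_h3Curve_12 : HasseRelation (h3Curve 1 2) := by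
  have hΔ : (h3Curve 1 2).Δ ≠ 0 := by decide
  refine h3_assembly _ hΔ (1) ?_ ?_
  · rw [h3_trace 1 2 hΔ 2 (by decide)]; norm_num
  · intro K _ _ _ _
    have h3 : (3 : K) = 0 := h3_three_eq_zero
    refine ⟨h3X (1 : K) 2, fun x y h h' hx => ?_⟩
    obtain ⟨hx0, hx1, hx2, hf⟩ := h3X_spec hx
    have ha₁ : ((h3Curve 1 2)⁄K).toAffine.a₁ = 0 := by simp [h3Curve]
    have ha₂ : ((h3Curve 1 2)⁄K).toAffine.a₂ = 1 := by simp [h3Curve]
    have ha₃ : ((h3Curve 1 2)⁄K).toAffine.a₃ = 0 := by simp [h3Curve]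
    have ha₄ : ((h3Curve 1 2)⁄K).toAffine.a₄ = 0 := by simp [h3Curve]
    have ha₆ : ((h3Curve 1 2)⁄K).toAffine.a₆ = 2 := by
      simp only [h3Curve, WeierstrassCurve.baseChange, WeierstrassCurve.toAffine,
        WeierstrassCurve.map_a₆]
      exact map_ofNat (algebraMap (ZMod 3) K) 2
    have hy0 : y ≠ 0 := by
      rintro rfl
      have := (((h3Curve 1 2)⁄K).toAffine.equation_iff x 0).1 h.1
      rw [ha₁, ha₂, ha₃, ha₄, ha₆] at this
      exact hf (by linear_combination -this)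
    exact h3c12_generic h3 ha₁ ha₂ ha₃ ha₄ ha₆ h h' hx0 hx1 hx2 hy0

theorem hasseRelation_h3Curve_21 : HasseRelation (h3Curve 2 1) := by
  have hΔ : (h3Curve 2 1).Δ ≠ 0 := by decide
  refine h3_assembly _ hΔ (-1) ?_ ?_
  · rw [h3_trace 2 1 hΔ 4 (by decide)]; norm_num
  · intro K _ _ _ _
    have h3 : (3 : K) = 0 := h3_three_eq_zero
    refine ⟨h3X (2 : K) 1, fun x y h h' hx => ?_⟩
    obtain ⟨hx0, hx1, hx2, hf⟩ := h3X_spec hx
    have ha₁ : ((h3Curve 2 1)⁄K).toAffine.a₁ = 0 := by simp [h3Curve]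
    have ha₂ : ((h3Curve 2 1)⁄K).toAffine.a₂ = 2 := by
      simp only [h3Curve, WeierstrassCurve.baseChange, WeierstrassCurve.toAffine,
        WeierstrassCurve.map_a₂]
      exact map_ofNat (algebraMap (ZMod 3) K) 2
    have ha₃ : ((h3Curve 2 1)⁄K).toAffine.a₃ = 0 := by simp [h3Curve]
    have ha₄ : ((h3Curve 2 1)⁄K).toAffine.a₄ = 0 := by simp [h3Curve]
    have ha₆ : ((h3Curve 2 1)⁄K).toAffine.a₆ = 1 := by simp [h3Curve]
    have hy0 : y ≠ 0 := by
      rintro rfl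
      have := (((h3Curve 2 1)⁄K).toAffine.equation_iff x 0).1 h.1
      rw [ha₁, ha₂, ha₃, ha₄, ha₆] at this
      exact hf (by linear_combination -this)
    exact h3c21_generic h3 ha₁ ha₂ ha₃ ha₄ ha₆ h h' hx0 hx1 hx2 hy0

/-- the extra exceptional polynomial of the curve `(1, 1)`. -/
noncomputable def h3G11 (K : Type) [Field K] : K[X] := X^6 + X^5 - X^4 + X^3 - X + 1

theorem h3G11_ne_zero (K : Type) [Field K] : h3G11 K ≠ 0 := by
  have : (h3G11 K).Monic := by
    unfold h3G11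
    monicity!
  exact this.ne_zero

theorem h3G11_eval (K : Type) [Field K] (x : K) : (h3G11 K).eval x = x^6 + x^5 - x^4 + x^3 - x + 1 := by
  simp [h3G11]

theorem hasseRelation_h3Curve_11 : HasseRelation (h3Curve 1 1) := by
  have hΔ : (h3Curve 1 1).Δ ≠ 0 := by decide
  refine h3_assembly _ hΔ (-2) ?_ ?_
  · rw [h3_trace 1 1 hΔ 5 (by decide)]; norm_num
  · intro K _ _ _ _
    have h3 : (3 : K) = 0 := h3_three_eq_zero
    refine ⟨h3X (1 : K) 1 ∪ (h3G11 K).roots.toFinset, fun x y h h' hx => ?_⟩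
    rw [Finset.mem_union, not_or] at hx
    obtain ⟨hx0, hx1, hx2, hf⟩ := h3X_spec hx.1
    have hg := h3_eval_ne_zero_of_not_mem (h3G11_ne_zero K) hx.2
    rw [h3G11_eval] at hg
    have hR : -x^6 - x^5 + x^4 - x^3 + x - 1 ≠ 0 := by
      intro hR
      exact hg (by linear_combination -hR)
    have ha₁ : ((h3Curve 1 1)⁄K).toAffine.a₁ = 0 := by simp [h3Curve]
    have ha₂ : ((h3Curve 1 1)⁄K).toAffine.a₂ = 1 := by simp [h3Curve]
    have ha₃ : ((h3Curve 1 1)⁄K).toAffine.a₃ = 0 := by simp [h3Curve]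
    have ha₄ : ((h3Curve 1 1)⁄K).toAffine.a₄ = 0 := by simp [h3Curve]
    have ha₆ : ((h3Curve 1 1)⁄K).toAffine.a₆ = 1 := by simp [h3Curve]
    have hy0 : y ≠ 0 := by
      rintro rfl
      have := (((h3Curve 1 1)⁄K).toAffine.equation_iff x 0).1 h.1
      rw [ha₁, ha₂, ha₃, ha₄, ha₆] at this
      exact hf (by linear_combination -this)
    exact h3c11_generic h3 ha₁ ha₂ ha₃ ha₄ ha₆ h h' hx0 hx1 hx2 hy0 hR

/-- the extra exceptional polynomial of the curve `(2, 2)`. -/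
noncomputable def h3G22 (K : Type) [Field K] : K[X] := X^6 - X^5 - X^4 - X^3 + X + 1

theorem h3G22_ne_zero (K : Type) [Field K] : h3G22 K ≠ 0 := by
  have : (h3G22 K).Monic := by
    unfold h3G22
    monicity!
  exact this.ne_zero

theorem h3G22_eval (K : Type) [Field K] (x : K) : (h3G22 K).eval x = x^6 - x^5 - x^4 - x^3 + x + 1 := by
  simp [h3G22]

theorem hasseRelation_h3Curve_22 : HasseRelation (h3Curve 2 2) := by
  have hΔ : (h3Curve 2 2).Δ ≠ 0 := by decide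
  refine h3_assembly _ hΔ (2) ?_ ?_
  · rw [h3_trace 2 2 hΔ 1 (by decide)]; norm_num
  · intro K _ _ _ _
    have h3 : (3 : K) = 0 := h3_three_eq_zero
    refine ⟨h3X (2 : K) 2 ∪ (h3G22 K).roots.toFinset, fun x y h h' hx => ?_⟩
    rw [Finset.mem_union, not_or] at hx
    obtain ⟨hx0, hx1, hx2, hf⟩ := h3X_spec hx.1
    have hg := h3_eval_ne_zero_of_not_mem (h3G22_ne_zero K) hx.2
    rw [h3G22_eval] at hg
    have hR : -x^6 + x^5 + x^4 + x^3 - x - 1 ≠ 0 := by
      intro hR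
      exact hg (by linear_combination -hR)
    have ha₁ : ((h3Curve 2 2)⁄K).toAffine.a₁ = 0 := by simp [h3Curve]
    have ha₂ : ((h3Curve 2 2)⁄K).toAffine.a₂ = 2 := by
      simp only [h3Curve, WeierstrassCurve.baseChange, WeierstrassCurve.toAffine,
        WeierstrassCurve.map_a₂]
      exact map_ofNat (algebraMap (ZMod 3) K) 2
    have ha₃ : ((h3Curve 2 2)⁄K).toAffine.a₃ = 0 := by simp [h3Curve]
    have ha₄ : ((h3Curve 2 2)⁄K).toAffine.a₄ = 0 := by simp [h3Curve]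
    have ha₆ : ((h3Curve 2 2)⁄K).toAffine.a₆ = 2 := by
      simp only [h3Curve, WeierstrassCurve.baseChange, WeierstrassCurve.toAffine,
        WeierstrassCurve.map_a₆]
      exact map_ofNat (algebraMap (ZMod 3) K) 2
    have hy0 : y ≠ 0 := by
      rintro rfl
      have := (((h3Curve 2 2)⁄K).toAffine.equation_iff x 0).1 h.1
      rw [ha₁, ha₂, ha₃, ha₄, ha₆] at this
      exact hf (by linear_combination -this)
    exact h3c22_generic h3 ha₁ ha₂ ha₃ ha₄ ha₆ h h' hx0 hx1 hx2 hy0 hR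

/-- **HASSE3, block (3d)**: the Hasse relation for the ordinary normal forms
`y² = x³ + a₂ x² + a₆`, `a₂ a₆ ≠ 0`, over `𝔽₃`. -/
theorem hasseRelation_ord3 (A2 A6 : ZMod 3) (h2 : A2 ≠ 0) (h6 : A6 ≠ 0) :
    HasseRelation (⟨0, A2, 0, 0, A6⟩ : WeierstrassCurve (ZMod 3)) := by
  have key : ∀ a b : ZMod 3, a ≠ 0 → b ≠ 0 →
      (a = 1 ∧ b = 2) ∨ (a = 2 ∧ b = 1) ∨ (a = 1 ∧ b = 1) ∨ (a = 2 ∧ b = 2) := by decide
  rcases key A2 A6 h2 h6 with ⟨rfl, rfl⟩ | ⟨rfl, rfl⟩ | ⟨rfl, rfl⟩ | ⟨rfl, rfl⟩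
  · exact hasseRelation_h3Curve_12
  · exact hasseRelation_h3Curve_21
  · exact hasseRelation_h3Curve_11
  · exact hasseRelation_h3Curve_22

end Fermat.Agent.H2
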