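import Fermat.Agent.H2.S58.Stabilise
import Fermat.Prelude.Def_WeierstrassCurve_ConductorLevel

/-!
# P-S58 block L1 (helper2), part 3: the `S58`-shaped corollary

If a normalised eigenform `g` of a level `M` dividing the (squarefree) conductor level `R` of `W`
has `a_ℓ(g) = a_ℓ(W)` at all good primes `ℓ ∤ R`, then `W` is modular of level `R`.
-/

set_option autoImplicit false

open UpperHalfPlane ModularForm CongruenceSubgroup ModularFormClass
open scoped MatrixGroups ModularForm

namespace Fermat.Agent.H2

/-- **L1**, general squarefree level. -/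
theorem s58_isModularModelOfLevel_of_dvd (W : WeierstrassCurve ℤ) {M R : ℕ} (hMR : M ∣ R)
    (hR : Squarefree R) (g : CuspForm (Gamma0 M) 2) (hg : g.IsNormalizedEigenform)
    (h : ∀ p : ℕ, p.Prime → W.IsGoodPrimeFor p → ¬ p ∣ R →
      qCoeff g p = (W.apOfModel p : ℂ)) :
    W.IsModularModelOfLevel R := by
  obtain ⟨f', hf', hc⟩ := s58_exists_stab_prime hMR hR g hg
  exact ⟨f', hf', fun p hp hgood hpR => (hc p hp hpR).trans (h p hp hgood hpR)⟩

/-- **L1** at the conductor level. -/
theorem s58_isModularModelOfLevel_conductorLevel (W : WeierstrassCurve ℤ) {M : ℕ}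
    (hM : M ∣ W.conductorLevel) (g : CuspForm (Gamma0 M) 2) (hg : g.IsNormalizedEigenform)
    (h : ∀ p : ℕ, p.Prime → W.IsGoodPrimeFor p → ¬ p ∣ W.conductorLevel →
      qCoeff g p = (W.apOfModel p : ℂ)) :
    W.IsModularModelOfLevel W.conductorLevel :=
  s58_isModularModelOfLevel_of_dvd W hM W.squarefree_conductorLevel g hg h

end Fermat.Agent.H2
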