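import Fermat.Agent.H2.S58.Dilate
import Fermat.Agent.H48.QCoeff

/-!
# P-S58 block L1 (helper2), part 2: stabilisation of a normalised eigenform

* `s58Stab M r β g = g - β g(r z)` at level `M r`;
* `s58Stab_isNormalizedEigenform` : if `r` is a prime not dividing `M`, `α + β = a_r(g)`,
  `α β = r`, then `s58Stab M r β g` is a normalised eigenform of level `M r`, with the same
  `q`-coefficients as `g` at all `n` prime to `r`;
* `s58_exists_stab` : for `M ∣ R`, `R` squarefree, a normalised eigenform of level `M` has a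
  stabilisation of level `R` with the same `q`-coefficients at all `n` prime to `R / M`.
-/

set_option autoImplicit false
set_option linter.style.haveILetI false

open UpperHalfPlane ModularForm CongruenceSubgroup ModularFormClass
open scoped MatrixGroups ModularForm

namespace Fermat.Agent.H2

/-- `g - β g(r z)` at level `M r`. -/
noncomputable def s58Stab (M r : ℕ) [NeZero r] (β : ℂ) (g : CuspForm (Gamma0 M) 2) :
    CuspForm (Gamma0 (M * r)) 2 :=
  s58Restrict M r g - β • s58Dilate M r g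

theorem qCoeff_s58Stab (M r : ℕ) [NeZero r] (β : ℂ) (g : CuspForm (Gamma0 M) 2) (n : ℕ) :
    qCoeff (s58Stab M r β g) n =
      qCoeff g n - β * (if r ∣ n then qCoeff g (n / r) else 0) := by
  unfold s58Stab
  rw [Fermat.Agent.H48.qCoeff_sub, Fermat.Agent.H48.qCoeff_smul, qCoeff_s58Restrict,
    qCoeff_s58Dilate]

theorem qCoeff_s58Stab_of_not_dvd (M r : ℕ) [NeZero r] (β : ℂ) (g : CuspForm (Gamma0 M) 2)
    {n : ℕ} (hn : ¬ r ∣ n) : qCoeff (s58Stab M r β g) n = qCoeff g n := by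
  rw [qCoeff_s58Stab, if_neg hn, mul_zero, sub_zero]

theorem qCoeff_s58Stab_of_dvd (M r : ℕ) [NeZero r] (β : ℂ) (g : CuspForm (Gamma0 M) 2)
    {n : ℕ} (hn : r ∣ n) :
    qCoeff (s58Stab M r β g) n = qCoeff g n - β * qCoeff g (n / r) := by
  rw [qCoeff_s58Stab, if_pos hn]

theorem qCoeff_s58Stab_mul_self (M r : ℕ) [NeZero r] (β : ℂ) (g : CuspForm (Gamma0 M) 2)
    (m : ℕ) : qCoeff (s58Stab M r β g) (r * m) = qCoeff g (r * m) - β * qCoeff g m := by
  rw [qCoeff_s58Stab_of_dvd M r β g (dvd_mul_right r m),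
    Nat.mul_div_cancel_left _ (Nat.pos_of_ne_zero (NeZero.ne r))]

/-- **Stabilisation**. -/
theorem s58Stab_isNormalizedEigenform {M r : ℕ} [NeZero r] (hr : r.Prime) (hrM : ¬ r ∣ M)
    {g : CuspForm (Gamma0 M) 2} (hg : g.IsNormalizedEigenform) {α β : ℂ}
    (hsum : α + β = qCoeff g r) (hprod : α * β = r) :
    (s58Stab M r β g).IsNormalizedEigenform := by
  have hnd : ∀ {p : ℕ}, p.Prime → p ≠ r → ∀ s : ℕ, ¬ r ∣ p ^ s := by
    intro p hp hpr s h
    exact hpr ((Nat.prime_dvd_prime_iff_eq hr hp).1 (hr.dvd_of_dvd_pow h)).symm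
  -- powers of `r`
  have hpow : ∀ s : ℕ, qCoeff (s58Stab M r β g) (r ^ (s + 1))
      = qCoeff g (r ^ (s + 1)) - β * qCoeff g (r ^ s) := by
    intro s
    rw [pow_succ', qCoeff_s58Stab_mul_self]
  have hone : qCoeff (s58Stab M r β g) 1 = 1 := by
    rw [qCoeff_s58Stab_of_not_dvd M r β g (fun h => hr.one_lt.ne' (Nat.dvd_one.1 h)), hg.qCoeff_one]
  have hr1 : qCoeff (s58Stab M r β g) r = α := by
    have := hpow 0
    rw [zero_add, pow_one, pow_zero, hg.qCoeff_one, mul_one, ← hsum] at this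
    rw [this]; ring
  refine ⟨hone, ?_, ?_, ?_⟩
  · -- multiplicativity
    intro m n hmn
    by_cases hrn : r ∣ n
    · have hrm : ¬ r ∣ m := fun h => hr.one_lt.ne' (Nat.dvd_one.1 (hmn ▸ Nat.dvd_gcd h hrn))
      obtain ⟨n', rfl⟩ := hrn
      have hmn' : m.Coprime n' := Nat.Coprime.coprime_mul_left_right hmn
      rw [qCoeff_s58Stab_of_not_dvd M r β g hrm, qCoeff_s58Stab_mul_self,
        show m * (r * n') = r * (m * n') by ring, qCoeff_s58Stab_mul_self,
        ← show m * (r * n') = r * (m * n') by ring,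
        hg.qCoeff_mul_of_coprime m (r * n') hmn, hg.qCoeff_mul_of_coprime m n' hmn']
      ring
    · rw [qCoeff_s58Stab_of_not_dvd M r β g hrn]
      by_cases hrm : r ∣ m
      · obtain ⟨m', rfl⟩ := hrm
        have hmn' : m'.Coprime n := Nat.Coprime.coprime_mul_left hmn
        rw [qCoeff_s58Stab_mul_self, mul_assoc, qCoeff_s58Stab_mul_self, ← mul_assoc,
          hg.qCoeff_mul_of_coprime (r * m') n hmn, hg.qCoeff_mul_of_coprime m' n hmn']
        ring
      · have hrmn : ¬ r ∣ m * n := fun h => (hr.dvd_mul.1 h).elim hrm hrn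
        rw [qCoeff_s58Stab_of_not_dvd M r β g hrm, qCoeff_s58Stab_of_not_dvd M r β g hrmn,
          hg.qCoeff_mul_of_coprime m n hmn]
  · -- good primes
    intro p s hp hpN
    have hpM : ¬ p ∣ M := fun h => hpN (dvd_mul_of_dvd_left h r)
    have hpr : p ≠ r := fun h => hpN (h ▸ dvd_mul_left p M)
    rw [qCoeff_s58Stab_of_not_dvd M r β g (hnd hp hpr _),
      qCoeff_s58Stab_of_not_dvd M r β g (hnd hp hpr _),
      qCoeff_s58Stab_of_not_dvd M r β g (hnd hp hpr _)]
    have h1 : ¬ r ∣ p := fun h => hpr ((Nat.prime_dvd_prime_iff_eq hr hp).1 h).symm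
    rw [qCoeff_s58Stab_of_not_dvd M r β g h1]
    exact hg.qCoeff_prime_pow_of_not_dvd p s hp hpM
  · -- bad primes
    intro p s hp hpN
    by_cases hpr : p = r
    · subst hpr
      rw [hr1, hpow (s + 1), hpow s, hg.qCoeff_prime_pow_of_not_dvd p s hp hrM, ← hsum]
      have : (p : ℂ) = α * β := hprod.symm
      rw [this]
      ring
    · have hpM : p ∣ M := (hp.dvd_mul.1 hpN).resolve_right
        (fun h => hpr ((Nat.prime_dvd_prime_iff_eq hp hr).1 h))
      have h1 : ¬ r ∣ p := fun h => hpr ((Nat.prime_dvd_prime_iff_eq hr hp).1 h).symm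
      rw [qCoeff_s58Stab_of_not_dvd M r β g (hnd hp hpr _),
        qCoeff_s58Stab_of_not_dvd M r β g (hnd hp hpr _),
        qCoeff_s58Stab_of_not_dvd M r β g h1]
      exact hg.qCoeff_prime_pow_of_dvd p s hp hpM

/-- One step of stabilisation: from level `M` to level `M r`. -/
theorem s58_exists_stab_step {M r : ℕ} (hr : r.Prime) (hrM : ¬ r ∣ M)
    (g : CuspForm (Gamma0 M) 2) (hg : g.IsNormalizedEigenform) :
    ∃ f' : CuspForm (Gamma0 (M * r)) 2, f'.IsNormalizedEigenform ∧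
      ∀ n : ℕ, ¬ r ∣ n → qCoeff f' n = qCoeff g n := by
  haveI : NeZero r := ⟨hr.ne_zero⟩
  obtain ⟨s, hs⟩ := IsAlgClosed.exists_pow_nat_eq ((qCoeff g r) ^ 2 - 4 * (r : ℂ)) (n := 2)
    (by norm_num)
  refine ⟨s58Stab M r ((qCoeff g r - s) / 2) g,
    s58Stab_isNormalizedEigenform hr hrM hg (α := (qCoeff g r + s) / 2) (by ring) ?_,
    fun n hn => qCoeff_s58Stab_of_not_dvd M r _ g hn⟩
  have : (qCoeff g r + s) / 2 * ((qCoeff g r - s) / 2) = ((qCoeff g r) ^ 2 - s ^ 2) / 4 := by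
    ring
  rw [this, hs]
  ring

/-- Transport along an equality of levels. -/
theorem s58_cast_level {N N' : ℕ} (h : N = N') (f : CuspForm (Gamma0 N) 2)
    (hf : f.IsNormalizedEigenform) :
    ∃ f' : CuspForm (Gamma0 N') 2, f'.IsNormalizedEigenform ∧
      ∀ n : ℕ, qCoeff f' n = qCoeff f n := by
  subst h
  exact ⟨f, hf, fun _ => rfl⟩

theorem s58_exists_stab_aux : ∀ d : ℕ, Squarefree d → ∀ M : ℕ, M.Coprime d →
    ∀ g : CuspForm (Gamma0 M) 2, g.IsNormalizedEigenform →
    ∃ f' : CuspForm (Gamma0 (M * d)) 2, f'.IsNormalizedEigenform ∧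
      ∀ n : ℕ, n.Coprime d → qCoeff f' n = qCoeff g n := by
  intro d
  induction d using Nat.strong_induction_on with
  | _ d ih =>
    intro hd M hM g hg
    by_cases hd1 : d = 1
    · subst hd1
      exact s58_cast_level (mul_one M).symm g hg |>.imp fun f' h => ⟨h.1, fun n _ => h.2 n⟩
    · obtain ⟨r, hr, hrd⟩ := Nat.exists_prime_and_dvd hd1
      obtain ⟨d', rfl⟩ := hrd
      have hd0 : r * d' ≠ 0 := hd.ne_zero
      have hd'0 : d' ≠ 0 := right_ne_zero_of_mul hd0
      have hd'lt : d' < r * d' := by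
        have := hr.one_lt
        nlinarith [Nat.pos_of_ne_zero hd'0]
      have hrM : ¬ r ∣ M := fun h =>
        hr.one_lt.ne' (Nat.dvd_one.1 (hM ▸ Nat.dvd_gcd h (dvd_mul_right r d')))
      have hsq' : Squarefree d' := hd.of_mul_right
      have hrd' : ¬ r ∣ d' := by
        intro h
        obtain ⟨e, rfl⟩ := h
        have : r * r ∣ r * (r * e) := ⟨e, by ring⟩
        exact hr.one_lt.ne' (Nat.isUnit_iff.1 (hd r this))
      have hcop : (M * r).Coprime d' := by
        refine Nat.Coprime.mul_left (Nat.Coprime.coprime_mul_left_right hM) ?_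
        exact (Nat.Prime.coprime_iff_not_dvd hr).2 hrd'
      obtain ⟨g₁, hg₁, hg₁c⟩ := s58_exists_stab_step hr hrM g hg
      obtain ⟨f₂, hf₂, hf₂c⟩ := ih d' hd'lt hsq' (M * r) hcop g₁ hg₁
      obtain ⟨f', hf', hf'c⟩ := s58_cast_level (mul_assoc M r d') f₂ hf₂
      refine ⟨f', hf', fun n hn => ?_⟩
      have hn1 : n.Coprime d' := Nat.Coprime.coprime_mul_left_right hn
      have hn2 : ¬ r ∣ n := fun h =>
        hr.one_lt.ne' (Nat.dvd_one.1 (hn ▸ Nat.dvd_gcd h (dvd_mul_right r d')))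
      rw [hf'c, hf₂c n hn1, hg₁c n hn2]

/-- **L1**: for `M ∣ R`, `R` squarefree, a normalised eigenform of level `M` has a stabilisation
of level `R` with the same `q`-coefficients at all `n` prime to `R / M`. -/
theorem s58_exists_stab {M R : ℕ} (hMR : M ∣ R) (hR : Squarefree R)
    (g : CuspForm (Gamma0 M) 2) (hg : g.IsNormalizedEigenform) :
    ∃ f' : CuspForm (Gamma0 R) 2, f'.IsNormalizedEigenform ∧
      ∀ n : ℕ, n.Coprime (R / M) → qCoeff f' n = qCoeff g n := by
  obtain ⟨d, rfl⟩ := hMR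
  have hM0 : M ≠ 0 := left_ne_zero_of_mul hR.ne_zero
  have hd : Squarefree d := hR.of_mul_right
  have hcop : M.Coprime d := Nat.coprime_of_squarefree_mul hR
  rw [Nat.mul_div_cancel_left _ (Nat.pos_of_ne_zero hM0)]
  exact s58_exists_stab_aux d hd M hcop g hg

/-- Prime form of **L1**: the eigenvalues at all primes not dividing `R` are unchanged. -/
theorem s58_exists_stab_prime {M R : ℕ} (hMR : M ∣ R) (hR : Squarefree R)
    (g : CuspForm (Gamma0 M) 2) (hg : g.IsNormalizedEigenform) :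
    ∃ f' : CuspForm (Gamma0 R) 2, f'.IsNormalizedEigenform ∧
      ∀ ℓ : ℕ, ℓ.Prime → ¬ ℓ ∣ R → qCoeff f' ℓ = qCoeff g ℓ := by
  obtain ⟨f', hf', h⟩ := s58_exists_stab hMR hR g hg
  refine ⟨f', hf', fun ℓ hℓ hℓR => h ℓ ?_⟩
  refine (Nat.Prime.coprime_iff_not_dvd hℓ).2 fun hdiv => hℓR ?_
  exact dvd_trans hdiv (Nat.div_dvd_of_dvd hMR)

end Fermat.Agent.H2
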